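import Mathlib
import Fermat.Agent.H24.Tate.Interfaces

/-!
# P-CFT / TATE-FIN (row 485): final assembly of Tate's theorem
-/

set_option autoImplicit false
set_option linter.style.haveILetI false

noncomputable section

open CategoryTheory

namespace Fermat.Agent.H47.TateFin

open Fermat.Agent.H24

/-- `res S.subtype (trivial ℤ G ℤ) ≅ trivial ℤ S ℤ`. -/
def resTrivialIso {G : Type} [Group G] (S : Subgroup G) :
    Rep.res S.subtype (Rep.trivial ℤ G ℤ) ≅ Rep.trivial ℤ S ℤ :=
  Iso.refl _

/-- **Tate's theorem** from the splitting module and the twin-number criterion. -/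
theorem tateTheorem (hsp : SplittingStatement) (htw : TwinCriterionStatement)
    (hi : ShiftIsoStatement) (hreg : LeftRegularTrivialStatement) : TateTheoremStatement := by
  intro G _ _ C u hCu S _ n
  obtain ⟨A, D, f, g, f', g', w, w', hex, hex', hD1, hD2⟩ := hsp G C u hCu
  have hDtriv : TateTrivial D := htw G D 1 hD1 hD2
  obtain ⟨e1⟩ := hi G (ShortComplex.mk f g w) hex hDtriv S (n + 1)
  obtain ⟨e2⟩ := hi G (ShortComplex.mk f' g' w') hex' (hreg G) S n
  have hn : n + 1 + 1 = n + 2 := by ring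
  exact ⟨eqToIso (by rw [hn]) ≪≫ e1.symm ≪≫ e2.symm ≪≫
    (tateCohomologyFunctor n).mapIso (resTrivialIso S)⟩

/-- a finite group has no nonzero homomorphism to `ℤ` -/
theorem subsingleton_addHom_int (S : Type) [Group S] [Finite S] :
    Subsingleton (Additive S →+ ℤ) := by
  refine ⟨fun f g => ?_⟩
  have key : ∀ φ : Additive S →+ ℤ, ∀ x, φ x = 0 := by
    intro φ x
    have h1 : (Nat.card S) • x = 0 := by
      have : (Additive.toMul x) ^ (Nat.card S) = 1 := pow_card_eq_one'
      exact congrArg Additive.ofMul this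
    have h2 : (Nat.card S) • φ x = 0 := by rw [← map_nsmul, h1, map_zero]
    have h3 : Nat.card S ≠ 0 := Nat.card_pos.ne'
    rcases smul_eq_zero.1 h2 with h | h
    · exact absurd h h3
    · exact h
  exact AddMonoidHom.ext fun x => by rw [key f x, key g x]

/-- `H³(S, C) = 0` for a class module. -/
theorem tateH3 (h : TateTheoremStatement) : TateH3Statement := by
  intro G _ _ C u hCu S
  haveI : Fintype S := Fintype.ofFinite S
  obtain ⟨e⟩ := h G C u hCu S 1
  have e3 : tateCohomology (Rep.res S.subtype C) ((3 : ℕ) : ℤ) ≅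
      groupCohomology (Rep.res S.subtype C) 3 :=
    (TateCohomology.isoGroupCohomology 3).app _
  have e1 : tateCohomology (Rep.trivial ℤ S ℤ) ((1 : ℕ) : ℤ) ≅
      groupCohomology (Rep.trivial ℤ S ℤ) 1 :=
    (TateCohomology.isoGroupCohomology 1).app _
  have e0 : groupCohomology (Rep.trivial ℤ S ℤ) 1 ≅ ModuleCat.of ℤ (Additive S →+ ℤ) :=
    groupCohomology.H1IsoOfIsTrivial _
  haveI : Subsingleton (Additive S →+ ℤ) := subsingleton_addHom_int S
  have h3 : ((3 : ℕ) : ℤ) = 1 + 2 := by norm_num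
  have h1 : (1 : ℤ) = ((1 : ℕ) : ℤ) := by norm_num
  have E : groupCohomology (Rep.res S.subtype C) 3 ≅ ModuleCat.of ℤ (Additive S →+ ℤ) :=
    e3.symm ≪≫ eqToIso (by rw [h3]) ≪≫ e ≪≫ eqToIso (by rw [← h1]) ≪≫ e1 ≪≫ e0
  exact E.toLinearEquiv.toEquiv.subsingleton

end Fermat.Agent.H47.TateFin
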