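import Mathlib
import Fermat.Agent.H24.Tate.Interfaces

/-!
# P-CFT / TATE-FIN (row 485): Tate cohomology is invariant under group isomorphisms
-/

set_option autoImplicit false
set_option linter.style.haveILetI false

noncomputable section

open CategoryTheory groupCohomology groupHomology

namespace Fermat.Agent.H47.TateFin

variable {G H : Type} [Group G] [Fintype G] [Group H] [Fintype H]

attribute [local instance 10000] Rep.hV2

/-- the comparison morphism `res e⁻¹ (res f M) ⟶ M` for a bijective `f : H →* G`. -/
def resResHom (f : H →* G) (hf : Function.Bijective f) (M : Rep ℤ G) :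
    Rep.res (MulEquiv.ofBijective f hf).symm.toMonoidHom (Rep.res f M) ⟶ M :=
  Rep.ofHom ⟨LinearMap.id, fun g => by
    have : f ((MulEquiv.ofBijective f hf).symm g) = g :=
      (MulEquiv.ofBijective f hf).apply_symm_apply g
    ext x
    simp [this]⟩

instance resResHom_mono (f : H →* G) (hf : Function.Bijective f) (M : Rep ℤ G) :
    Mono (resResHom f hf M) :=
  (Rep.mono_iff_injective _).2 fun _ _ h => h

instance resResHom_epi (f : H →* G) (hf : Function.Bijective f) (M : Rep ℤ G) :
    Epi (resResHom f hf M) :=
  (Rep.epi_iff_surjective _).2 fun x => ⟨x, rfl⟩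

/-- the comparison map of Tate complexes -/
def tateComplexTransport (f : H →* G) (hf : Function.Bijective f) (M : Rep ℤ G) :
    tateComplex (Rep.res f M) ⟶ tateComplex M :=
  CochainComplex.ConnectData.map _ _ (chainsMap f (𝟙 (Rep.res f M)))
    (cochainsMap (MulEquiv.ofBijective f hf).symm.toMonoidHom (resResHom f hf M)) (by
      ext x
      simp only [chainsMap_f, cochainsMap_f, resResHom]
      apply DFunLike.ext
      intro m
      funext y
      simp
      rw [Rep.tateNorm_eq, Rep.tateNorm_eq]
      simp [Representation.norm]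
      exact (Fintype.sum_bijective f hf (fun c => M.ρ (f c) m) (fun c => M.ρ c m)
        (fun _ => rfl)).symm)

theorem tateComplexTransport_isIso (f : H →* G) (hf : Function.Bijective f) (M : Rep ℤ G) :
    IsIso (tateComplexTransport f hf M) := by
  have hcomp : ∀ i : ℤ, IsIso ((tateComplexTransport f hf M).f i) := by
    rintro (n | n)
    · haveI : Mono ((cochainsMap (MulEquiv.ofBijective f hf).symm.toMonoidHom
          (resResHom f hf M)).f n) :=
        cochainsMap_f_map_mono _ _ (MulEquiv.ofBijective f hf).symm.surjective n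
      haveI : Epi ((cochainsMap (MulEquiv.ofBijective f hf).symm.toMonoidHom
          (resResHom f hf M)).f n) :=
        cochainsMap_f_map_epi _ _ (MulEquiv.ofBijective f hf).symm.injective n
      change IsIso ((cochainsMap (MulEquiv.ofBijective f hf).symm.toMonoidHom
          (resResHom f hf M)).f n)
      exact isIso_of_mono_of_epi _
    · haveI : Mono ((chainsMap f (𝟙 (Rep.res f M))).f n) :=
        chainsMap_f_map_mono _ _ hf.injective n
      haveI : Epi ((chainsMap f (𝟙 (Rep.res f M))).f n) :=
        chainsMap_f_map_epi _ _ hf.surjective n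
      change IsIso ((chainsMap f (𝟙 (Rep.res f M))).f n)
      exact isIso_of_mono_of_epi _
  exact HomologicalComplex.Hom.isIso_of_components _

/-- **Tate cohomology is invariant under group isomorphisms.** -/
def tateCohomologyTransport (f : H →* G) (hf : Function.Bijective f) (M : Rep ℤ G) (n : ℤ) :
    tateCohomology (Rep.res f M) n ≅ tateCohomology M n :=
  (HomologicalComplex.homologyFunctor _ _ n).mapIso
    (@asIso _ _ _ _ (tateComplexTransport f hf M) (tateComplexTransport_isIso f hf M))


open Fermat.Agent.H24 in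
/-- `#Ĥ⁰(G, C) = #G^ab` for a class module. -/
theorem tateH0Card (h : TateTheoremStatement) : TateH0CardStatement := by
  intro G _ _ C u hCu
  haveI : Fintype (⊤ : Subgroup G) := Fintype.ofFinite _
  obtain ⟨e⟩ := h G C u hCu ⊤ (-2)
  have hbij : Function.Bijective (⊤ : Subgroup G).subtype :=
    ⟨Subtype.val_injective, fun g => ⟨⟨g, Subgroup.mem_top g⟩, rfl⟩⟩
  have e0 := tateCohomologyTransport (⊤ : Subgroup G).subtype hbij C 0
  have e2 : tateCohomology (Rep.trivial ℤ (⊤ : Subgroup G) ℤ) (-2) ≅
      groupHomology (Rep.trivial ℤ (⊤ : Subgroup G) ℤ) 1 :=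
    (TateCohomology.isoGroupHomology (-2) 1 rfl).app _
  have e3 := groupHomology.H1AddEquivOfIsTrivial (Rep.trivial ℤ (⊤ : Subgroup G) ℤ)
  have e4 := TensorProduct.rid ℤ (Additive (Abelianization (⊤ : Subgroup G)))
  have e5 : Abelianization (⊤ : Subgroup G) ≃* Abelianization G :=
    (Subgroup.topEquiv : (⊤ : Subgroup G) ≃* G).abelianizationCongr
  have h02 : (-2 : ℤ) + 2 = 0 := by norm_num
  have E : tateCohomology C 0 ≅ groupHomology (Rep.trivial ℤ (⊤ : Subgroup G) ℤ) 1 :=
    e0.symm ≪≫ eqToIso (by rw [h02]) ≪≫ e ≪≫ e2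
  calc Nat.card (tateCohomology C 0)
      = Nat.card (groupHomology (Rep.trivial ℤ (⊤ : Subgroup G) ℤ) 1) :=
        Nat.card_congr E.toLinearEquiv.toEquiv
    _ = Nat.card (TensorProduct ℤ (Additive (Abelianization (⊤ : Subgroup G))) ℤ) :=
        Nat.card_congr e3.toEquiv
    _ = Nat.card (Additive (Abelianization (⊤ : Subgroup G))) := Nat.card_congr e4.toEquiv
    _ = Nat.card (Abelianization (⊤ : Subgroup G)) := Nat.card_congr Additive.toMul
    _ = Nat.card (Abelianization G) := Nat.card_congr e5.toEquiv

end Fermat.Agent.H47.TateFin
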